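import Fermat.Agent.FF19.NSG.Interface
import Fermat.Agent.RED.EvBasic
import Fermat.Agent.S24.PlaceBasic

/-!
# FF19 / NSG : NSG-4 `NS.NonSpec ⟹ Good`
-/

set_option autoImplicit false

noncomputable section

namespace Fermat.Agent.FF19.NSG

open IntermediateField AlgebraicCurve
open Fermat.Agent.RED (Ev)

section Adapt

variable {k κ : Type} [Field k] [Field κ] [Algebra k κ]

open Classical in
theorem Adapt_sumPl_apply {g : ℕ} (x : Fin g → Place k κ) (y : Place k κ) :
    A.sumPl x y = ∑ j, if x j = y then (1 : ℤ) else 0 := by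
  simp [A.sumPl, Finsupp.finsetSum_apply, Finsupp.single_apply]

theorem Adapt_sumPl_out {g : ℕ} (x : Fin g → Place k κ) (y : Place k κ) (h : ∀ i, y ≠ x i) :
    A.sumPl x y = 0 := by
  classical
  rw [Adapt_sumPl_apply]
  refine Finset.sum_eq_zero fun j _ => ?_
  rw [if_neg (fun h' => h j h'.symm)]

theorem Adapt_sumPl_self {g : ℕ} (x : Fin g → Place k κ) (hx : Function.Injective x) (i : Fin g) :
    A.sumPl x (x i) = 1 := by
  classical
  rw [Adapt_sumPl_apply]
  have h1 : ∀ j, (if x j = x i then (1 : ℤ) else 0) = if j = i then 1 else 0 := by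
    intro j
    by_cases h : j = i
    · rw [if_pos h, if_pos (by rw [h])]
    · rw [if_neg h, if_neg (fun h' => h (hx h'))]
  simp [h1]

theorem Adapt_ev_iff (y : Place k κ) (f : κ) (c : k) :
    Ev y f c ↔ y.toValuationSubring.valuation (f - algebraMap k κ c) < 1 := by
  unfold Ev
  rw [ValuationSubring.mem_nonunits_iff]

/-- enumeration of one fibre. -/
theorem Adapt_enum (s : ℕ) (S : Finset (ValuationSubring κ)) (hS : ∀ x ∈ S, x ∈ Pts k κ)
    (hcard : S.card = s + 1) (P : ValuationSubring κ) (hP : P ∈ S) :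
    ∃ w : Fin (s + 1) → Place k κ, Function.Injective w ∧ (∀ l, (w l).toValuationSubring ∈ S) ∧
      (∀ x ∈ S, ∃ l, (w l).toValuationSubring = x) ∧ (w 0).toValuationSubring = P := by
  classical
  let e0 : S ≃ Fin (s + 1) := S.equivFinOfCardEq hcard
  let e : Fin (s + 1) ≃ S := (Equiv.swap 0 (e0 ⟨P, hP⟩)).trans e0.symm
  have he0 : e 0 = ⟨P, hP⟩ := by
    simp [e]
  have hex : ∀ l, ∃ v : Place k κ, v.toValuationSubring = (e l : ValuationSubring κ) :=
    fun l => hS _ (e l).2
  choose w hw using hex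
  refine ⟨w, ?_, ?_, ?_, ?_⟩
  · intro l l' h
    apply e.injective
    apply Subtype.ext
    rw [← hw l, ← hw l', h]
  · intro l
    rw [hw l]; exact (e l).2
  · intro x hx
    refine ⟨e.symm ⟨x, hx⟩, ?_⟩
    rw [hw]; simp
  · rw [hw, he0]

end Adapt

/-- **NSG-4** -/
theorem stmt_Adapt : Stmt_Adapt := by
  intro k κ _ _ _ tb g s c P htr hNS
  choose S hU hP using hNS.fib
  choose w hwinj hwS hwall hw0 using fun i =>
    Adapt_enum s (S i) (hU i).sub (hU i).card (P i) (hP i)
  have hne : ∀ a : k, tb - algebraMap k κ a ≠ 0 := by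
    intro a h
    apply htr
    rw [sub_eq_zero] at h
    rw [h]
    exact isAlgebraic_algebraMap a
  have hev : ∀ i l, Ev (w i l) tb (c i) := by
    intro i l
    rw [Adapt_ev_iff]
    exact ((hU i).mem_iff _ ((hU i).sub _ (hwS i l))).1 (hwS i l)
  have hxinj : Function.Injective (fun i => w i 0) := by
    intro i j h
    apply hNS.inj
    have h1 := hev i 0
    have h2 := hev j 0
    simp only at h
    rw [h] at h1
    exact RED.ev_unique h1 h2
  have hunr : ∀ i l, (w i l).ord (tb - algebraMap k κ (c i)) = 1 := by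
    intro i l
    have h1 : 0 < (w i l).ord (tb - algebraMap k κ (c i)) := by
      rw [← RED.ev_zero_iff_ord (hne _), RED.ev_zero_iff]
      exact hev i l
    obtain ⟨ϖ, hϖ⟩ := S24.exists_ord_eq_one (w i l)
    have hϖ0 : ϖ ≠ 0 := by
      rintro rfl
      rw [Place.ord_zero] at hϖ
      exact zero_ne_one hϖ
    have h2 : (w i l).toValuationSubring.valuation ϖ < 1 := by
      rw [← ValuationSubring.mem_nonunits_iff, ← RED.ev_zero_iff, RED.ev_zero_iff_ord hϖ0, hϖ]
      exact one_pos
    have h3 := S24.ord_nonneg_of_mem _ ((hU i).unif _ (hwS i l) ϖ h2)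
    rw [div_eq_mul_inv, Place.ord_mul _ hϖ0 (inv_ne_zero (hne _)), Place.ord_inv, hϖ] at h3
    omega
  refine ⟨w, ⟨hNS.inj, hwinj, hev, hunr, ?_, ?_⟩, hw0⟩
  · intro i y hy
    rw [Adapt_ev_iff] at hy
    have h1 : y.toValuationSubring ∈ S i := ((hU i).mem_iff _ ⟨y, rfl⟩).2 hy
    obtain ⟨l, hl⟩ := hwall i _ h1
    exact ⟨l, Place.ext hl.symm⟩
  · intro h hh0 hh
    apply hNS.ns h
    · rintro _ ⟨y, rfl⟩ hy
      have h1 : ∀ i, y ≠ w i 0 := by
        rintro i rfl
        exact hy i (hw0 i)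
      have h2 := hh y
      rw [Adapt_sumPl_out _ y h1, zero_add] at h2
      exact S24.mem_of_ord_nonneg y hh0 h2
    · intro i
      have h2 := hh (w i 0)
      rw [Adapt_sumPl_self (fun i => w i 0) hxinj i] at h2
      rw [← hw0 i]
      apply S24.mem_of_ord_nonneg _ (mul_ne_zero (hne _) hh0)
      rw [Place.ord_mul _ (hne _) hh0, hunr]
      exact h2

end Fermat.Agent.FF19.NSG

end

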