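import Fermat.Agent.FF19.NS.Interface
import Fermat.Agent.FF19.Kap.Interface
import Fermat.Agent.FF19.NSA.UB
import Fermat.Agent.FF19.A.Interface

/-!
# FF19 / NSG : the glue NS-ABS + NS-ARITH + KAP ⟹ the `κ`-side of `Law.GeoData` (architect helper28)

NS-ABS (`NS.Stmt_Abs`) speaks of points = valuation subrings in a set `Pts` satisfying `NS.PtAx`.  Blocks A and L
(`A.Base.ns`, `Law.Fibres`) speak of `Place k κ` and `Place.ord`.  Here: `Pts k κ` := the valuation subrings of the places.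

* `Stmt_AllPl` : every valuation subring `≠ ⊤` of `κ` containing `k` is (the ring of) a place.
* `Stmt_PtAx`  : `NS.PtAx k (Pts k κ)`.
* `Stmt_Unr`   : all but finitely many fibres of `tb` are `NS.UnrFib`.
* `Stmt_Adapt` : `NS.NonSpec` ⟹ `Good` (the output in the language of places).
* `Stmt_Out`, `Stmt_Out2` : THE OUTPUT OF THE WHOLE BLOCK NS (one chart / two charts).

Every `Stmt_X` is one work package: `theorem stmt_X : (deps →) Stmt_X` in `Fermat/Agent/FF19/NSG/X.lean`
(import this file; helper lemmas prefixed `X_`).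
-/

set_option autoImplicit false

noncomputable section

namespace Fermat.Agent.FF19.NSG

open IntermediateField AlgebraicCurve
open Fermat.Agent.INJ (RedData Chart Branch IsInt)
open Fermat.Agent.RED (Ev)
open Fermat.Agent.FF19.Kap (IsSepVar)

/-- the points of `κ / k` : the valuation subrings of the places. -/
def Pts (k κ : Type) [Field k] [Field κ] [Algebra k κ] : Set (ValuationSubring κ) :=
  Set.range (fun v : Place k κ => v.toValuationSubring)

/-- **the output of NS on `κ`, in the language of places**: `g` unramified fibres of `tb` with distinct values `cb i`,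
`w i l` (`l : Fin (s + 1)`) = all the points of the fibre over `cb i`, and `∑ w i 0` is non special. -/
structure Good {k κ : Type} [Field k] [Field κ] [Algebra k κ] (tb : κ) {g s : ℕ} (cb : Fin g → k)
    (w : Fin g → Fin (s + 1) → Place k κ) : Prop where
  cb_inj : Function.Injective cb
  inj : ∀ i, Function.Injective (w i)
  ev : ∀ i l, Ev (w i l) tb (cb i)
  unr : ∀ i l, (w i l).ord (tb - algebraMap k κ (cb i)) = 1
  all : ∀ (i : Fin g) (y : Place k κ), Ev y tb (cb i) → ∃ l, y = w i l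
  ns : ∀ h : κ, h ≠ 0 → (∀ y : Place k κ, 0 ≤ A.sumPl (fun i => w i 0) y + y.ord h) →
    ∃ c : k, h = algebraMap k κ c

/-- **NSG-1**.  Every valuation subring `V ≠ ⊤` of `κ` containing `k` is the ring of a place.
[`tb ∈ V` or `tb⁻¹ ∈ V` (`V.mem_or_inv_mem`); in the second case replace `tb` by `tb⁻¹` (`Kap.stmt_Shift`, file
`Kap/Shift.lean`: `IsSepVar k tb⁻¹`).  So `tb ∈ V`.  `R := S24.intRing k tb` is a Dedekind domain with fraction field `κ`
(`Kap.Fund_isDedekindDomain`, `Kap.Fund_isFractionRing` in `Kap/Fund.lean`, or `NSA.KapInt_isDedekindDomain` +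
`S24.intRing_isFractionRing`).  `R ≤ V`: `V` is integrally closed and contains `k[tb]`
(`ValuationSubring` is `IsIntegrallyClosed`; or `Valuation.Integers`/`IsIntegral.mem…`; see `RED.EV_mem_of_isIntegral`).
Then COPY the proof of `S24.exists_heightOneSpectrum_of_le` (`S24/PlacePrime.lean` l.142-222) with `v.toValuationSubring`
replaced by `V` and `v.ne_top'` by `V ≠ ⊤`: that proof never uses that `O_v` is principal.  It gives
`V = (Place.ofHeightOneSpectrum P).toValuationSubring`.] -/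
def Stmt_AllPl : Prop :=
  ∀ (k κ : Type) [Field k] [Field κ] [Algebra k κ] [IsAlgClosed k] (tb : κ), IsSepVar k tb →
    ∀ V : ValuationSubring κ, (∀ c : k, algebraMap k κ c ∈ V) → V ≠ ⊤ → V ∈ Pts k κ

/-- **NSG-2**.  [`const` : `Place.algebraMap_mem'`.  `res` : `Kap.Stmt_Basic` (2nd clause); `Ev v f c` is
`f - c ∈ nonunits`, `ValuationSubring.mem_nonunits_iff` / `valuation_lt_one_iff`.  `glob` : `Kap.Stmt_RRS` (3rd clause) +
`mem_riemannRochSpace_iff` + `S24.ord_nonneg_of_mem`.  `int` : `iInf_valuationSubring_superset` (Mathlib,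
`RingTheory/Valuation/LocalSubring`) with `s = Set.range (algebraMap k κ) ∪ {u}`: `h` lies in every valuation subring
`V ⊇ s` (`V = ⊤`, or `V` is a place by NSG-1), so `h` is integral over `Subring.closure s`, and
`Subring.closure s ≤ (Algebra.adjoin k {u}).toSubring`, so `h` is integral over `Algebra.adjoin k {u}`
(`IsIntegral.tower_top`-like: map the monic polynomial along the inclusion, `IsIntegral.map`/`isIntegral_of_…`).] -/
def Stmt_PtAx : Prop :=
  ∀ (k κ : Type) [Field k] [Field κ] [Algebra k κ] [IsAlgClosed k] (tb : κ), IsSepVar k tb →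
    NS.PtAx k (Pts k κ)

/-- **NSG-3**.  [The set is contained in `{c | ∃ v, 2 ≤ v.ord (tb - c)}` (`Kap.Stmt_Unram`).  If `c` is not in that set,
`Kap.Stmt_Fibre` gives `s₀ : Finset (Place k κ)`, `s₀.card = n`, `v ∈ s₀ ↔ Ev v tb c`; `s := s₀.image toValuationSubring`
(injective: `Place.ext`).  `unif`: `v ∈ s₀`, `tb - c ≠ 0` (`tb` transcendental), `1 ≤ v.ord (tb - c)`
(`RED.ev_zero_iff_ord` or `S24.mem_maximalIdeal_iff_ord_pos`) and `≤ 1`, so `= 1`; `f = 0` or `1 ≤ v.ord f`;
`Place.ord_mul`, `Place.ord_inv`, `S24.mem_of_ord_nonneg`.] -/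
def Stmt_Unr : Prop :=
  ∀ (k κ : Type) [Field k] [Field κ] [Algebra k κ] [IsAlgClosed k] (tb : κ), IsSepVar k tb →
    {c : k | ¬ ∃ s, NS.UnrFib k (Pts k κ) tb (Module.finrank k⟮tb⟯ κ) c s}.Finite

/-- **NSG-4**.  [For each `i`: `fib i` gives `S_i : Finset (ValuationSubring κ)`, `UnrFib`, `P i ∈ S_i`, `S_i.card = s + 1`.
`e : Fin (s+1) ≃ S_i` (`Finset.equivFinOfCardEq`), composed with `Equiv.swap 0 (e.symm ⟨P i, _⟩)` so that `0 ↦ P i`;
every element of `S_i` is in `Pts`, choose the place: `w i l`.  `ev` from `mem_iff`; `unr`: `1 ≤ ord` from `ev`;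
`ord ≤ 1`: take `ϖ` with `ord ϖ = 1` (`S24.exists_ord_eq_one`), `unif` gives `ϖ / (tb - c) ∈ O`, so `0 ≤ 1 - ord (tb - c)`.
`all` from `mem_iff`.  `ns`: `x i := w i 0` are distinct (distinct values `cb i`, `RED.ev_unique`), so
`A.sumPl x y = 0` if `y ≠ x i` for all `i` and `A.sumPl x (x i) = 1`; apply `NonSpec.ns`.] -/
def Stmt_Adapt : Prop :=
  ∀ (k κ : Type) [Field k] [Field κ] [Algebra k κ] (tb : κ) (g s : ℕ) (c : Fin g → k)
    (P : Fin g → ValuationSubring κ), Transcendental k tb →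
    NS.NonSpec k (Pts k κ) tb (s + 1) g c P →
    ∃ w : Fin g → Fin (s + 1) → Place k κ, Good tb c w ∧ ∀ i, (w i 0).toValuationSubring = P i

/-- **NS : THE OUTPUT** (one chart). -/
def Stmt_Out : Prop :=
  ∀ (K F k Fb : Type) [Field K] [Field F] [Algebra K F] [Field k] [Field Fb] [Algebra k Fb]
    [IsAlgClosed K] [CharZero K] [IsAlgClosed k] (D : RedData K F k Fb) (t : F),
    Chart D t → Chart D t⁻¹ → Branch D t → Branch D t⁻¹ →
    ∀ s : ℕ, s + 1 = Module.finrank K⟮t⟯ F → ∀ Z : Finset k,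
      ∃ (cb : Fin (genusFF K F) → k) (w : Fin (genusFF K F) → Fin (s + 1) → Place k Fb),
        Good (D.rd t) cb w ∧ ∀ i, cb i ∉ Z

/-- **NS : THE OUTPUT** (two charts). -/
def Stmt_Out2 : Prop :=
  ∀ (K F k Fb : Type) [Field K] [Field F] [Algebra K F] [Field k] [Field Fb] [Algebra k Fb]
    [IsAlgClosed K] [CharZero K] [IsAlgClosed k] (D : RedData K F k Fb) (t : F),
    Chart D t → Chart D t⁻¹ → Branch D t → Branch D t⁻¹ →
    ∀ s : ℕ, s + 1 = Module.finrank K⟮t⟯ F → ∀ Z : Finset k,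
      ∃ (cb cb' : Fin (genusFF K F) → k) (w w' : Fin (genusFF K F) → Fin (s + 1) → Place k Fb),
        Good (D.rd t) cb w ∧ Good (D.rd t) cb' w' ∧ Function.Injective (Sum.elim cb cb') ∧
        (∀ i, cb i ∉ Z) ∧ ∀ i, cb' i ∉ Z

end Fermat.Agent.FF19.NSG

end
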