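import Fermat.Agent.FF19.NSG.Interface
import Fermat.Agent.S24.PlaceBasic

/-!
# FF19 / NSG, task NSG-2 : `NS.PtAx k (Pts k κ)`
-/

set_option autoImplicit false

namespace Fermat.Agent.FF19.NSG

open IntermediateField AlgebraicCurve
open Fermat.Agent.INJ (RedData Chart Branch IsInt)
open Fermat.Agent.RED (Ev)
open Fermat.Agent.FF19.Kap (IsSepVar)

/-- an element which lies in every valuation subring containing `k` and `u` is integral over `k[u]`. -/
theorem PtAx_int {k κ : Type} [Field k] [Field κ] [Algebra k κ] (u h : κ)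
    (H : ∀ V : ValuationSubring κ, (∀ c : k, algebraMap k κ c ∈ V) → u ∈ V → h ∈ V) :
    IsInt k u h := by
  have h1 : h ∈ (⨅ V : {V : ValuationSubring κ //
      (Set.range (algebraMap k κ) ∪ {u}) ⊆ V.toSubring}, V.1.toSubring) := by
    rw [Subring.mem_iInf]
    rintro ⟨V, hV⟩
    exact H V (fun c => hV (Or.inl ⟨c, rfl⟩)) (hV (Or.inr rfl))
  rw [iInf_valuationSubring_superset] at h1
  have h2 : IsIntegral (Subring.closure (Set.range (algebraMap k κ) ∪ {u})) h := h1
  have hle : Subring.closure (Set.range (algebraMap k κ) ∪ {u}) ≤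
      (Algebra.adjoin k {u}).toSubring := by
    rw [Subring.closure_le]
    rintro x (⟨c, rfl⟩ | hx)
    · exact (Algebra.adjoin k {u}).algebraMap_mem c
    · rw [Set.mem_singleton_iff] at hx
      rw [hx]
      exact Algebra.self_mem_adjoin_singleton k u
  obtain ⟨p, hp, hp0⟩ := h2
  refine ⟨p.map (Subring.inclusion hle), hp.map _, ?_⟩
  rw [Polynomial.eval₂_map]
  exact hp0

/-- **NSG-2**. -/
theorem stmt_PtAx (hA : Stmt_AllPl) (hB : Kap.Stmt_Basic) (hR : Kap.Stmt_RRS) : Stmt_PtAx := by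
  intro k κ _ _ _ _ tb htb
  refine ⟨?_, ?_, ?_, ?_⟩
  · rintro _ ⟨v, rfl⟩ c
    exact v.algebraMap_mem' c
  · rintro _ ⟨v, rfl⟩ f hf
    obtain ⟨c, hc⟩ := (hB k κ tb htb).2.1 v f hf
    exact ⟨c, (ValuationSubring.mem_nonunits_iff _).1 hc⟩
  · intro h hh
    have h1 : h ∈ riemannRochSpace (0 : Divisor k κ) := by
      rw [mem_riemannRochSpace_iff]
      intro v
      right
      have := Fermat.Agent.S24.ord_nonneg_of_mem v (hh _ ⟨v, rfl⟩)
      simpa using this
    obtain ⟨c, hc⟩ := ((hR k κ tb htb).2.2.1 h).1 h1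
    exact ⟨c, hc.symm⟩
  · intro u h hh
    refine PtAx_int u h fun V hV hu => ?_
    by_cases hT : V = ⊤
    · rw [hT]; exact ValuationSubring.mem_top h
    · exact hh V (hA k κ tb htb V hV hT) hu

end Fermat.Agent.FF19.NSG
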